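import Mathlib

/-!
# S58, block RES, file `Line` (Mathlib only)

A two dimensional representation `r` over `k` with a stable line after extension of scalars to `K`:
the subgroup `H = {h | h u = u, det h = 1}` is normal, contains the commutators, and its elements have
characteristic polynomial `(X - 1)²`.
-/

set_option autoImplicit false

open Polynomial TensorProduct

namespace Fermat.Agent.S58.Res

variable {G : Type*} [Group G] {k : Type*} [Field k] {V : Type*} [AddCommGroup V] [Module k V]
  [Module.Finite k V] {K : Type*} [Field K] [Algebra k K]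

/-- **(L0)** the characteristic polynomial in dimension two.
PROOF.  `charpoly f` is monic
(`LinearMap.charpoly_monic`) of `natDegree` `2` (`LinearMap.charpoly_natDegree`, `hV`); write it as
`X ^ 2 + C (coeff 1) * X + C (coeff 0)` (`Polynomial.ext`, or `Polynomial.as_sum_range'`), and
`coeff 0 = det f` by `LinearMap.det_eq_sign_charpoly_coeff` (`(-1) ^ 2 = 1`). -/
theorem charpoly_eq_of_finrank_two (hV : Module.finrank k V = 2) (f : Module.End k V) :
    LinearMap.charpoly f = X ^ 2 + C ((LinearMap.charpoly f).coeff 1) * X + C (LinearMap.det f) := by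
  have hm := LinearMap.charpoly_monic f
  have hd : (LinearMap.charpoly f).natDegree = 2 := by rw [LinearMap.charpoly_natDegree, hV]
  have h2 : (LinearMap.charpoly f).coeff 2 = 1 := by
    have := hm.coeff_natDegree
    rwa [hd] at this
  have h0 : LinearMap.det f = (LinearMap.charpoly f).coeff 0 := by
    rw [LinearMap.det_eq_sign_charpoly_coeff, hV]
    norm_num
  rw [h0]
  conv_lhs => rw [Polynomial.as_sum_range' (LinearMap.charpoly f) 3 (by rw [hd]; norm_num)]
  rw [Finset.sum_range_succ, Finset.sum_range_succ, Finset.sum_range_succ, Finset.sum_range_zero,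
    h2, zero_add, ← C_mul_X_pow_eq_monomial, ← C_mul_X_pow_eq_monomial, ← C_mul_X_pow_eq_monomial,
    pow_zero, pow_one, mul_one, C_1, one_mul]
  ring

/-- **(L1)** PROOF.  `1` is a root of `charpoly (f.baseChange K) = (charpoly f).map (algebraMap k K)`
(`LinearMap.charpoly_baseChange`): `u` is an eigenvector for the eigenvalue `1`
(`Module.End.hasEigenvalue_of_hasEigenvector`, `Module.End.hasEigenvalue_iff_isRoot_charpoly` or
`LinearMap.aeval_self_charpoly` applied to `u`: `aeval g q u = q.eval 1 • u` for `g u = u`).  So `(charpoly f).eval 1 = 0` in `k`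
(`algebraMap k K` is injective).  With `charpoly_eq_of_finrank_two` and `det f = 1`: `1 + coeff 1 + 1 = 0`. -/
theorem charpoly_eq_of_fixed (hV : Module.finrank k V = 2) (f : Module.End k V)
    (hdet : LinearMap.det f = 1) {u : K ⊗[k] V} (hu : u ≠ 0) (hfu : f.baseChange K u = u) :
    LinearMap.charpoly f = X ^ 2 - C 2 * X + C 1 := by
  have hev : Module.End.HasEigenvalue (f.baseChange K) 1 := by
    apply Module.End.hasEigenvalue_of_hasEigenvector (x := u)
    rw [Module.End.hasEigenvector_iff]
    refine ⟨?_, hu⟩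
    rw [Module.End.mem_eigenspace_iff, hfu, one_smul]
  rw [Module.End.hasEigenvalue_iff_isRoot_charpoly, LinearMap.charpoly_baseChange, IsRoot.def,
    Polynomial.eval_one_map] at hev
  have h1 : (LinearMap.charpoly f).eval 1 = 0 :=
    (map_eq_zero_iff _ (algebraMap k K).injective).1 hev
  have h2 := charpoly_eq_of_finrank_two hV f
  rw [hdet] at h2
  rw [h2] at h1
  simp only [eval_add, eval_mul, eval_pow, eval_X, eval_C, one_pow, mul_one] at h1
  have h3 : (LinearMap.charpoly f).coeff 1 = -2 := by linear_combination h1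
  rw [h2, h3, C_neg]
  ring

/-- **(L2)** a proper nonzero stable subspace is a line spanned by a common eigenvector.
PROOF.  `finrank K (K ⊗[k] V) = 2` (`Module.finrank_baseChange`), `0 < finrank K U < 2`
(`Submodule.finrank_pos_iff`/`Submodule.one_le_finrank_iff`, `Submodule.finrank_lt`), so `finrank K U = 1`;
`finrank_eq_one_iff'` gives a generator `u`. -/
theorem exists_eigen_of_stable (hV : Module.finrank k V = 2) (r : G →* Module.End k V)
    (U : Submodule K (K ⊗[k] V)) (hU : ∀ g : G, ∀ x ∈ U, (r g).baseChange K x ∈ U)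
    (h0 : U ≠ ⊥) (h1 : U ≠ ⊤) :
    ∃ u : K ⊗[k] V, u ≠ 0 ∧ ∀ g : G, ∃ a : K, (r g).baseChange K u = a • u := by
  have h2 : Module.finrank K (K ⊗[k] V) = 2 := by rw [Module.finrank_baseChange, hV]
  have h3 : 1 ≤ Module.finrank K U := Submodule.one_le_finrank_iff.2 h0
  have h4 : Module.finrank K U < 2 := h2 ▸ Submodule.finrank_lt h1
  have h5 : Module.finrank K U = 1 := by omega
  obtain ⟨v₀, hv₀U, hv₀⟩ := Submodule.exists_mem_ne_zero_of_ne_bot h0
  obtain ⟨v, hv, hgen⟩ : ∃ v : U, v ≠ 0 ∧ ∀ w : U, ∃ c : K, c • v = w :=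
    ⟨⟨v₀, hv₀U⟩, fun h => hv₀ (congrArg Subtype.val h),
      (finrank_eq_one_iff_of_nonzero' (⟨v₀, hv₀U⟩ : U)
        (fun h => hv₀ (congrArg Subtype.val h))).1 h5⟩
  refine ⟨v, fun h => hv (Subtype.ext h), fun g => ?_⟩
  obtain ⟨c, hc⟩ := hgen ⟨(r g).baseChange K v, hU g v v.2⟩
  exact ⟨c, (congrArg Subtype.val hc).symm⟩

/-- **(L3)** PROOF.  `H := {h | (r h).baseChange K u = u ∧ det (r h) = 1}`.
`(r (g * h)).baseChange K = (r g).baseChange K * (r h).baseChange K` (`map_mul`, `LinearMap.baseChange_mul`), `r 1 = 1`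
(`LinearMap.baseChange_one`), `LinearMap.det` is multiplicative (`map_mul`), `det (r g) * det (r g⁻¹) = 1`.
Choose `a g` with `r g u = a g • u`; `a g * a g⁻¹ = 1` (from `r g (r g⁻¹ u) = u`, `u ≠ 0`).
Normal: `r (g h g⁻¹) u = a g⁻¹ • r g (r h u) = (a g⁻¹ * a g) • u = u`.  Commutators: `r (g h g⁻¹ h⁻¹) u = (a g a h a g⁻¹ a h⁻¹) • u = u`
(`K` commutative); determinants likewise.  Last clause: `charpoly_eq_of_fixed`. -/
theorem exists_normal_of_eigen (hV : Module.finrank k V = 2) (r : G →* Module.End k V)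
    {u : K ⊗[k] V} (hu : u ≠ 0) (hev : ∀ g : G, ∃ a : K, (r g).baseChange K u = a • u) :
    ∃ H : Subgroup G, H.Normal ∧ (∀ g h : G, g * h * g⁻¹ * h⁻¹ ∈ H) ∧
      ∀ h ∈ H, LinearMap.charpoly (r h) = X ^ 2 - C 2 * X + C 1 := by
  choose a ha using hev
  have hinj : Function.Injective (fun c : K => c • u) := smul_left_injective K hu
  have hone : a 1 = 1 := by
    apply hinj
    show a 1 • u = (1 : K) • u
    rw [← ha 1, map_one, LinearMap.baseChange_one, one_smul]
    rfl
  have hmul : ∀ g h, a (g * h) = a g * a h := by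
    intro g h
    apply hinj
    show a (g * h) • u = (a g * a h) • u
    rw [← ha (g * h), map_mul, LinearMap.baseChange_mul, Module.End.mul_apply, ha h, map_smul, ha g,
      smul_smul, mul_comm]
  let χ : G →* K := { toFun := a, map_one' := hone, map_mul' := hmul }
  let δ : G →* k := (LinearMap.det : Module.End k V →* k).comp r
  have hcomm : ∀ (M : Type _) [CommMonoid M] (f : G →* M) (g h : G),
      f (g * h * g⁻¹ * h⁻¹) = 1 := by
    intro M _ f g h
    have e1 : f g * f g⁻¹ = 1 := by rw [← map_mul, mul_inv_cancel, map_one]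
    have e2 : f h * f h⁻¹ = 1 := by rw [← map_mul, mul_inv_cancel, map_one]
    calc f (g * h * g⁻¹ * h⁻¹) = f g * f h * f g⁻¹ * f h⁻¹ := by
          rw [map_mul, map_mul, map_mul]
      _ = (f g * f g⁻¹) * (f h * f h⁻¹) := by
          rw [mul_assoc (f g), mul_comm (f h), ← mul_assoc (f g), mul_assoc]
      _ = 1 := by rw [e1, e2, one_mul]
  refine ⟨(χ.prod δ).ker, MonoidHom.normal_ker _, fun g h => ?_, fun h hh => ?_⟩
  · rw [MonoidHom.mem_ker]
    exact hcomm _ (χ.prod δ) g h
  · rw [MonoidHom.mem_ker, MonoidHom.prod_apply, Prod.mk_eq_one] at hh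
    have h1 : a h = 1 := hh.1
    have h2 : LinearMap.det (r h) = 1 := hh.2
    exact charpoly_eq_of_fixed hV (r h) h2 hu (by rw [ha h, h1, one_smul])

end Fermat.Agent.S58.Res
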