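import Fermat.Agent.S58.Res.Invol
import Fermat.Agent.S58.Res.Line

/-!
# S58, block RES, file `Odd` (Mathlib only): the determinant of an involution
-/

set_option autoImplicit false

open Polynomial

namespace Fermat.Agent.S58.Res

/-- primitive roots of unity in an algebraically closed field of characteristic zero.
(`HasEnoughRootsOfUnity.exists_primitiveRoot Ω n` with `NeZero (n : Ω)`, or `IsCyclotomicExtension`, or
`Polynomial.cyclotomic` has a root: `IsAlgClosed.exists_root`, `Polynomial.isRoot_cyclotomic_iff`.) -/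
theorem exists_primitiveRoot (Ω : Type*) [Field Ω] [IsAlgClosed Ω] [CharZero Ω] {n : ℕ}
    (hn : 0 < n) : ∃ ζ : Ω, IsPrimitiveRoot ζ n := by
  have : NeZero n := ⟨hn.ne'⟩
  have : NeZero (n : Ω) := ⟨Nat.cast_ne_zero.mpr hn.ne'⟩
  exact HasEnoughRootsOfUnity.exists_primitiveRoot Ω n

/-- **(R2)**  PROOF.  `ζ` a primitive `p`-th root of unity (`exists_primitiveRoot`).  `ζ ^ d = c ζ = ζ⁻¹`
(`invol_map_root`, `p` odd: `Nat.Prime.odd_of_ne_two`), so `ζ ^ (d + 1) = 1`, so `p ∣ d + 1`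
(`IsPrimitiveRoot.dvd_of_pow_eq_one`), so `((d + 1 : ℕ) : k) = 0` (`CharP.cast_eq_zero_iff k p`), so `(d : k) = -1`.
`det f = (charpoly f).coeff 0`: take `coeff 0` in `charpoly_eq_of_finrank_two hV f`. -/
theorem det_eq_neg_one {Ω : Type*} [Field Ω] [IsAlgClosed Ω] [CharZero Ω] {c : Ω →+* Ω}
    (hc : ∀ x, c (c x) = x) (hne : ∃ x, c x ≠ x) {p : ℕ} [Fact p.Prime] (hp2 : p ≠ 2)
    {k : Type*} [Field k] [CharP k p] {V : Type*} [AddCommGroup V] [Module k V]
    [Module.Finite k V] (hV : Module.finrank k V = 2) (f : Module.End k V) {d : ℕ}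
    (hd : (LinearMap.charpoly f).coeff 0 = (d : k)) (hζ : ∀ ζ : Ω, ζ ^ p = 1 → c ζ = ζ ^ d) :
    LinearMap.det f = -1 := by
  have hp : p.Prime := Fact.out
  obtain ⟨ζ, hprim⟩ := exists_primitiveRoot Ω hp.pos
  have h1 : ζ ^ d = ζ⁻¹ := by
    rw [← hζ ζ hprim.pow_eq_one]
    exact invol_map_root hc hne (hp.odd_of_ne_two hp2) hprim.pow_eq_one
  have hζ0 : ζ ≠ 0 := hprim.ne_zero hp.ne_zero
  have h2 : ζ ^ (d + 1) = 1 := by rw [pow_succ, h1, inv_mul_cancel₀ hζ0]
  have h3 : p ∣ d + 1 := hprim.dvd_of_pow_eq_one _ h2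
  have h4 : ((d + 1 : ℕ) : k) = 0 := (CharP.cast_eq_zero_iff k p _).mpr h3
  have h5 : (d : k) = -1 := by
    push_cast at h4
    exact eq_neg_of_add_eq_zero_left h4
  have h6 : (LinearMap.charpoly f).coeff 0 = LinearMap.det f := by
    conv_lhs => rw [charpoly_eq_of_finrank_two hV f]
    simp
  rw [← h6, hd, h5]

end Fermat.Agent.S58.Res
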