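import Fermat.Agent.S58.Contracts
import Fermat.Agent.S58.Res.Odd

/-!
# S58, block RES, file `Bridge`: the module `T = E[p]` and the mod `p` cyclotomic character
-/

set_option autoImplicit false

open WeierstrassCurve WeierstrassCurve.Affine

namespace Fermat.Agent.S58.Res

/-- `E[p]`, the module of the Prelude's `ModRepIsIrreducible`. -/
abbrev Tp (W : WeierstrassCurve ℤ) (p : ℕ) : Type :=
  Submodule.torsionBy ℤ (EP W) (p : ℤ)

variable {W : WeierstrassCurve ℤ} {p : ℕ}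

theorem Tp_coe_smul (g : GQ) (P : Tp W p) : ((g • P : Tp W p) : EP W) = g • (P : EP W) := rfl

/-- (B1) `Submodule.mem_torsionBy_iff`, `natCast_zsmul`. -/
theorem Tp_nsmul_coe (P : Tp W p) : p • (P : EP W) = 0 := by
  have h := (Submodule.mem_torsionBy_iff (p : ℤ) (P : EP W)).mp P.2
  rwa [natCast_zsmul] at h

/-- (B1') -/
theorem Tp_nsmul (P : Tp W p) : p • P = 0 := by
  apply Subtype.ext
  rw [Submodule.coe_smul_of_tower]
  exact Tp_nsmul_coe P

/-- (B2) `hT.fin W hΔ p hp`: `Tp W p` injects into the finite set `{P | p • P = 0}` (`Tp_nsmul_coe`). -/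
theorem Tp_finite (hT : StmtTors) (hΔ : W.Δ ≠ 0) (hp : 0 < p) : Finite (Tp W p) := by
  have hfin : Finite {P : EP W | p • P = 0} := (hT.fin W hΔ p hp).to_subtype
  exact Finite.of_injective
    (fun P : Tp W p => (⟨(P : EP W), Tp_nsmul_coe P⟩ : {P : EP W | p • P = 0}))
    (fun P Q h => Subtype.ext (congrArg (fun z : {P : EP W | p • P = 0} => (z : EP W)) h))

/-- (B3) an additive subgroup of a `ZMod p`-module is a submodule (`AddSubgroup.toZModSubmodule p`, an order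
isomorphism; or by hand: `ZMod.intCast_surjective`, `Int.cast_smul_eq_zsmul`), then unfold `ModRepIsIrreducible`,
`Affine.Point.GaloisRepIsIrreducible`, `Affine.Point.IsGaloisStable`. -/
theorem Tp_irr (hirr : W.ModRepIsIrreducible p) (N : AddSubgroup (Tp W p))
    (hN : ∀ g : GQ, ∀ x ∈ N, g • x ∈ N) : N = ⊥ ∨ N = ⊤ := by
  rcases hirr.2 (AddSubgroup.toZModSubmodule p N) (fun σ x hx => hN σ x hx) with h | h
  · exact Or.inl ((map_eq_bot_iff (AddSubgroup.toZModSubmodule p)).mp h)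
  · exact Or.inr ((map_eq_top_iff (AddSubgroup.toZModSubmodule p)).mp h)

theorem Tp_nontrivial (hirr : W.ModRepIsIrreducible p) : Nontrivial (Tp W p) := hirr.1

/-- (B4) `hT.two W hΔ p hp P (Tp_nsmul_coe P)`. -/
theorem Tp_nc (hT : StmtTors) (hΔ : W.Δ ≠ 0) (hp : p.Prime) (P : Tp W p) :
    ∃ Q : Tp W p, ∀ k : ℤ, Q ≠ k • P := by
  obtain ⟨Q, hQ, hk⟩ := hT.two W hΔ p hp P (Tp_nsmul_coe P)
  refine ⟨⟨Q, (Submodule.mem_torsionBy_iff _ _).mpr (by rw [natCast_zsmul]; exact hQ)⟩,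
    fun k h => hk k ?_⟩
  exact congrArg Subtype.val h

/-- (B5) the mod `p` cyclotomic character.
PROOF.  `ζ` a primitive `p`-th root of unity in `Qb` (`exists_primitiveRoot`), `χ := hζ.autToPow ℚ`
(`IsPrimitiveRoot.autToPow`, `IsPrimitiveRoot.autToPow_spec : ζ ^ (χ g : ZMod p).val = g ζ`).
First clause: `ζ ^ d = ζ ^ (χ g).val` gives `d ≡ (χ g).val [MOD p]` (`IsPrimitiveRoot.pow_inj` after reduction mod `p`, or
`IsPrimitiveRoot.pow_eq_pow_iff_modEq`‑type lemmas / `hζ.zpow_eq_one_iff_dvd`), then `ZMod.natCast_eq_natCast_iff`,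
`ZMod.natCast_zmod_val`.  Second clause: `ζ⁻¹ = ζ ^ (p - 1)`, so by the first clause `χ g = (p - 1 : ℕ) = -1`. -/
theorem exists_chi (p : ℕ) [Fact p.Prime] : ∃ χ : GQ →* (ZMod p)ˣ,
    (∀ (g : GQ) (d : ℕ), (∀ ζ : Qb, ζ ^ p = 1 → g ζ = ζ ^ d) → (d : ZMod p) = (χ g : ZMod p)) ∧
    (∀ g : GQ, (∀ ζ : Qb, ζ ^ p = 1 → g ζ = ζ⁻¹) → χ g = -1) := by
  have hp : p.Prime := Fact.out
  have hpQ : NeZero ((p : ℕ) : ℚ) := ⟨Nat.cast_ne_zero.mpr hp.ne_zero⟩
  obtain ⟨ζ, hζ⟩ := HasEnoughRootsOfUnity.exists_primitiveRoot Qb p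
  have key : ∀ (g : GQ) (d : ℕ), (∀ ζ : Qb, ζ ^ p = 1 → g ζ = ζ ^ d) →
      (d : ZMod p) = (hζ.autToPow ℚ g : ZMod p) := by
    intro g d h
    have h1 : ζ ^ (d % p) = ζ ^ (hζ.autToPow ℚ g : ZMod p).val := by
      rw [hζ.autToPow_spec ℚ g, h ζ hζ.pow_eq_one]
      conv_lhs => rw [hζ.eq_orderOf]
      exact pow_mod_orderOf ζ d
    have h2 : d % p = (hζ.autToPow ℚ g : ZMod p).val :=
      hζ.pow_inj (Nat.mod_lt _ hp.pos) (ZMod.val_lt _) h1
    rw [← ZMod.natCast_mod d p, h2, ZMod.natCast_zmod_val]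
  refine ⟨hζ.autToPow ℚ, key, ?_⟩
  intro g h
  have h1 := key g (p - 1) (fun z hz => by
    rw [h z hz]
    apply inv_eq_of_mul_eq_one_right
    rw [← pow_succ', Nat.sub_add_cancel hp.one_le, hz])
  apply Units.ext
  rw [← h1, Nat.cast_sub hp.one_le]
  simp

end Fermat.Agent.S58.Res
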