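import Fermat.Agent.S58.Res.Abs
import Fermat.Agent.S58.Res.Bridge
import Fermat.Agent.GAL.Cyclo

/-!
# S58, block RES: `stmtRes_of : StmtQuad → StmtTors → StmtRes` (assembly)
-/

set_option autoImplicit false

open Polynomial WeierstrassCurve WeierstrassCurve.Affine

namespace Fermat.Agent.S58.Res

/-- the quadratic relation for a residual representation. -/
theorem quad_res (hQ : StmtQuad) {W : WeierstrassCurve ℤ} (hΔ : W.Δ ≠ 0) {p : ℕ} (hp : 0 < p)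
    {k : Type} [Field k] (ρ : ResidualGaloisRep k) (B : Finset ℕ)
    (hB : ∀ ℓ : ℕ, ℓ.Prime → ℓ ∉ B → ∀ A : ValuationSubring Qb, A.LiesOverPrime ℓ →
      ∀ σ : GQ, A.IsFrobeniusAt σ ℓ →
        LinearMap.charpoly (ρ.ρ σ) = X ^ 2 - C ((W.apOfModel ℓ : ℤ) : k) * X + C (ℓ : k)) (g : GQ) :
    ∃ (t : ℤ) (d : ℕ),
      (LinearMap.charpoly (ρ.ρ g)).coeff 1 = -(t : k) ∧
      (LinearMap.charpoly (ρ.ρ g)).coeff 0 = (d : k) ∧
      (∀ ζ : Qb, ζ ^ p = 1 → g ζ = ζ ^ d) ∧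
      ∀ P : EP W, p • P = 0 → g • g • P - t • g • P + (d : ℤ) • P = 0 := by
  obtain ⟨L, hL, hL1⟩ := ρ.factorsThroughFiniteLevel
  obtain ⟨t, d, h1, h0, h2, h3⟩ := hQ W hΔ k ρ.V ρ.finrank_eq ρ.ρ ⊥ L hL
    (fun σ hσ v => by rw [hL1 σ hσ]; simp) B hB p hp g
  refine ⟨t, d, ?_, ?_, h2, h3⟩
  · exact eq_neg_of_add_eq_zero_left ((Ideal.mem_bot).1 h1)
  · exact sub_eq_zero.1 ((Ideal.mem_bot).1 h0)

/-- **Block RES.** -/
theorem stmtRes_of (hQ : StmtQuad) (hT : StmtTors) : StmtRes := by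
  intro W hΔ p _ hp2 hirr k _ _ ρ B hB
  have hp : p.Prime := Fact.out
  have hquad := quad_res hQ hΔ hp.pos ρ B hB
  constructor
  · -- absolute irreducibility
    obtain ⟨χ, hχ1, hχ2⟩ := exists_chi p
    obtain ⟨c, hc, hcinv⟩ := Fermat.Agent.GAL.Cyclo.exists_conj_inv
    have hχc : χ c = -1 := hχ2 c (fun ζ hζ => hcinv p ζ hp.ne_zero hζ)
    have := Tp_finite (W := W) hT hΔ hp.pos
    have := Tp_nontrivial hirr
    intro U hU
    refine abs_irred (G := GQ) (T := Tp W p) hp2 Tp_nsmul (Tp_irr hirr) (Tp_nc hT hΔ hp) χ hc hχc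
      ρ.finrank_eq ρ.ρ ?_ U hU
    intro g
    obtain ⟨t, d, h1, h0, h2, h3⟩ := hquad g
    refine ⟨t, (d : ℤ), h1, by rw [h0]; simp, by rw [← hχ1 g d h2]; simp, fun P => ?_⟩
    exact Subtype.ext (h3 (P : EP W) (Tp_nsmul_coe P))
  · -- oddness
    intro c hc hne
    obtain ⟨t, d, -, h0, h2, -⟩ := hquad c
    refine det_eq_neg_one (Ω := Qb) (c := (c : Qb →+* Qb)) (fun x => ?_) ?_ hp2 ρ.finrank_eq
      (ρ.ρ c) h0 h2
    · exact DFunLike.congr_fun hc x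
    · by_contra hcon
      push Not at hcon
      exact hne (AlgEquiv.ext hcon)

end Fermat.Agent.S58.Res
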