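import Fermat.Agent.S58.Res.Basic

/-!
# S58, block RES, file `Scalar` (Mathlib only)

`T` an irreducible `F_p[G]`-module, `p` odd, on which `G` acts through an abelian group, such that every `g`
satisfies a quadratic relation `g² - t g + d = 0` with `d = χ g`, `χ` a character with `χ c = -1` for an involution
`c`.  Then `T` is cyclic.
-/

set_option autoImplicit false

namespace Fermat.Agent.S58.Res

variable {G : Type*} [Group G] {p : ℕ} {T : Type*} [AddCommGroup T] [DistribMulAction G T]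

/-- **(S1)** `c = ± 1` on `T`.
PROOF.  `N := {P | c • P = P}` is an additive subgroup, `G`-stable by `hab`.  If `N = ⊤`: `ε = 1`.
If `N = ⊥`: `P + c • P ∈ N` (`c • c • P = P` from `hc`, `mul_smul`), so `c • P = - P`: `ε = -1`. -/
theorem invol_eq_sign
    (hirr : ∀ N : AddSubgroup T, (∀ g : G, ∀ x ∈ N, g • x ∈ N) → N = ⊥ ∨ N = ⊤)
    (hab : ∀ (g h : G) (P : T), g • h • P = h • g • P) {c : G} (hc : c * c = 1) :
    ∃ ε : ℤ, (ε = 1 ∨ ε = -1) ∧ ∀ P : T, c • P = ε • P := by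
  have hcc : ∀ P : T, c • c • P = P := fun P => by rw [← mul_smul, hc, one_smul]
  let N : AddSubgroup T :=
    { carrier := {P | c • P = P}
      add_mem' := by
        intro a b ha hb
        show c • (a + b) = a + b
        rw [smul_add, ha, hb]
      zero_mem' := smul_zero c
      neg_mem' := by
        intro a ha
        show c • (-a) = -a
        rw [smul_neg, ha] }
  have hN : ∀ P : T, P ∈ N ↔ c • P = P := fun _ => Iff.rfl
  rcases hirr N (fun g x hx => by
    rw [hN] at hx ⊢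
    rw [hab c g x, hx]) with h | h
  · refine ⟨-1, Or.inr rfl, fun P => ?_⟩
    have h1 : P + c • P ∈ N := by
      rw [hN, smul_add, hcc, add_comm]
    rw [h, AddSubgroup.mem_bot] at h1
    rw [neg_smul, one_smul]
    exact eq_neg_of_add_eq_zero_right h1
  · refine ⟨1, Or.inl rfl, fun P => ?_⟩
    have h1 : P ∈ N := by rw [h]; exact AddSubgroup.mem_top P
    rw [one_smul]
    exact (hN P).1 h1

/-- **(S2)** every `s` acts as a scalar.
PROOF.  `hQ s`: `s s P - t s P + d P = 0`, `d = χ s`.  `hQ (c * s)`: `t'`, `d'`, `d' = χ (c s) = - χ s = - d` in `ZMod p`, so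
`d' • P = (-d) • P` (`zsmul_congr hpT`).  `(c s)(c s) P = s s P` (`mul_smul`, `hab`, `c • c • Q = Q`), `(c s) P = ε • s • P`.
Subtracting: `m • s • P = (2 d) • P` for all `P`, `m := t - ε t'`.
If `(m : ZMod p) = 0` then `(2 d) • P = 0` for all `P`; `(2 d : ZMod p)` is a unit (`p ≠ 2`, `d = χ s`), say `e * (2 d) = 1` in
`ZMod p` (lift `e` to `ℤ` with `ZMod.intCast_surjective`), so `P = (e * (2 d)) • P = 0` for all `P`: contradicts `Nontrivial T`.
So `m` is a unit mod `p`: `m' * m = 1` in `ZMod p`, and `s • P = (m' * m) • s • P = (m' * (2 d)) • P`. -/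
theorem exists_scalar [Fact p.Prime] (hp2 : p ≠ 2) [Nontrivial T] (hpT : ∀ P : T, p • P = 0)
    (hab : ∀ (g h : G) (P : T), g • h • P = h • g • P)
    (χ : G →* (ZMod p)ˣ) {c : G} (hc : c * c = 1) (hχc : χ c = -1)
    {ε : ℤ} (hε : ε = 1 ∨ ε = -1) (hcε : ∀ P : T, c • P = ε • P)
    (hQ : ∀ g : G, ∃ t d : ℤ, (d : ZMod p) = (χ g : ZMod p) ∧
      ∀ P : T, g • g • P - t • g • P + d • P = 0) (s : G) :
    ∃ a : ℤ, ∀ P : T, s • P = a • P := by
  obtain ⟨t, d, hd, hq⟩ := hQ s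
  obtain ⟨t', d', hd', hq'⟩ := hQ (c * s)
  have hd'' : (d' : ZMod p) = ((-d : ℤ) : ZMod p) := by
    rw [hd', map_mul, hχc, Units.val_mul, Units.val_neg, Units.val_one, Int.cast_neg, hd]
    ring
  have hcc : ∀ Q : T, c • c • Q = Q := by
    intro Q
    rw [← mul_smul, hc, one_smul]
  have key : ∀ P : T, (t - ε * t') • s • P = (2 * d) • P := by
    intro P
    have h1 := hq P
    have h2 := hq' P
    have e1 : (c * s) • (c * s) • P = s • s • P := by
      rw [mul_smul, mul_smul, hab s c (s • P), hcc]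
    have e2 : (c * s) • P = ε • s • P := by
      rw [mul_smul, hcε]
    rw [e1, e2, zsmul_congr hpT hd'' P] at h2
    have h3 : s • s • P = t • s • P - d • P := by
      rw [sub_add_eq_add_sub, sub_eq_zero] at h1
      rw [← h1, add_sub_cancel_right]
    rw [h3, neg_smul, smul_smul] at h2
    rw [sub_smul, two_mul, add_smul, mul_comm ε t']
    have h4 : t • s • P - (t' * ε) • s • P - (d • P + d • P) = 0 := by
      rw [← h2]; abel
    exact sub_eq_zero.mp h4
  have h2ne : ((2 * d : ℤ) : ZMod p) ≠ 0 := by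
    rw [Int.cast_mul, hd]
    refine mul_ne_zero ?_ (χ s).ne_zero
    intro h
    have h' : ((2 : ℕ) : ZMod p) = 0 := by exact_mod_cast h
    rw [ZMod.natCast_eq_zero_iff] at h'
    exact hp2 ((Nat.prime_dvd_prime_iff_eq Fact.out Nat.prime_two).mp h')
  by_cases hm : ((t - ε * t' : ℤ) : ZMod p) = 0
  · exfalso
    obtain ⟨e, he⟩ := ZMod.intCast_surjective (((2 * d : ℤ) : ZMod p)⁻¹)
    have h1 : ((e * (2 * d) : ℤ) : ZMod p) = ((1 : ℤ) : ZMod p) := by
      rw [Int.cast_mul, he, inv_mul_cancel₀ h2ne, Int.cast_one]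
    obtain ⟨P, hP⟩ := exists_ne (0 : T)
    apply hP
    have h0 : (2 * d) • P = 0 := by
      rw [← key P, zsmul_congr hpT (b := 0) (by rw [hm, Int.cast_zero]) (s • P), zero_smul]
    rw [← one_smul ℤ P, ← zsmul_congr hpT h1 P, mul_smul, h0, smul_zero]
  · obtain ⟨m', hm'⟩ := ZMod.intCast_surjective (((t - ε * t' : ℤ) : ZMod p)⁻¹)
    have h1 : ((m' * (t - ε * t') : ℤ) : ZMod p) = ((1 : ℤ) : ZMod p) := by
      rw [Int.cast_mul, hm', inv_mul_cancel₀ hm, Int.cast_one]
    refine ⟨m' * (2 * d), fun P => ?_⟩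
    rw [mul_smul, ← key P, ← mul_smul, zsmul_congr hpT h1 (s • P), one_smul]

/-- **(S3)**  PROOF.  `P ≠ 0`, `N := AddSubgroup.zmultiples P` is stable by `exists_scalar` (with `invol_eq_sign`):
`s • (k • P) = a • k • P = (a * k) • P`.  `N ≠ ⊥`, so `N = ⊤`, contradiction with `hnc P`. -/
theorem false_of_abelian [Fact p.Prime] (hp2 : p ≠ 2) [Nontrivial T] (hpT : ∀ P : T, p • P = 0)
    (hirr : ∀ N : AddSubgroup T, (∀ g : G, ∀ x ∈ N, g • x ∈ N) → N = ⊥ ∨ N = ⊤)
    (hnc : ∀ P : T, ∃ Q : T, ∀ k : ℤ, Q ≠ k • P)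
    (hab : ∀ (g h : G) (P : T), g • h • P = h • g • P)
    (χ : G →* (ZMod p)ˣ) {c : G} (hc : c * c = 1) (hχc : χ c = -1)
    (hQ : ∀ g : G, ∃ t d : ℤ, (d : ZMod p) = (χ g : ZMod p) ∧
      ∀ P : T, g • g • P - t • g • P + d • P = 0) : False := by
  obtain ⟨ε, hε, hcε⟩ := invol_eq_sign hirr hab hc
  obtain ⟨P, hP⟩ := exists_ne (0 : T)
  rcases hirr (AddSubgroup.zmultiples P) (fun s x hx => by
    obtain ⟨a, ha⟩ := exists_scalar hp2 hpT hab χ hc hχc hε hcε hQ s
    obtain ⟨k, rfl⟩ := AddSubgroup.mem_zmultiples_iff.1 hx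
    rw [ha, ← mul_smul]
    exact AddSubgroup.mem_zmultiples_iff.2 ⟨a * k, rfl⟩) with h | h
  · have h1 : P ∈ AddSubgroup.zmultiples P := AddSubgroup.mem_zmultiples P
    rw [h, AddSubgroup.mem_bot] at h1
    exact hP h1
  · obtain ⟨Q, hQ'⟩ := hnc P
    have h1 : Q ∈ AddSubgroup.zmultiples P := by rw [h]; exact AddSubgroup.mem_top Q
    obtain ⟨k, hk⟩ := AddSubgroup.mem_zmultiples_iff.1 h1
    exact hQ' k hk.symm

end Fermat.Agent.S58.Res
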