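import Fermat.Agent.S58.Res.Kolchin
import Fermat.Agent.S58.Res.Scalar
import Fermat.Agent.S58.Res.Line

/-!
# S58, block RES, file `Abs`: the abstract absolute irreducibility theorem (assembly)
-/

set_option autoImplicit false

open Polynomial TensorProduct

namespace Fermat.Agent.S58.Res

/-- `T` a finite irreducible non cyclic `F_p[G]`-module, `r` a two dimensional representation of `G` in characteristic
`p` such that every `g` satisfies on `T` an integral quadratic relation lifting the characteristic polynomial of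
`r g`, with constant term a character `χ` which is `-1` on an involution.  Then `r` is absolutely irreducible. -/
theorem abs_irred {G : Type*} [Group G] {p : ℕ} [Fact p.Prime] (hp2 : p ≠ 2) {T : Type*}
    [AddCommGroup T] [DistribMulAction G T] [Finite T] [Nontrivial T]
    (hpT : ∀ P : T, p • P = 0)
    (hirr : ∀ N : AddSubgroup T, (∀ g : G, ∀ x ∈ N, g • x ∈ N) → N = ⊥ ∨ N = ⊤)
    (hnc : ∀ P : T, ∃ Q : T, ∀ k : ℤ, Q ≠ k • P)
    (χ : G →* (ZMod p)ˣ) {c : G} (hc : c * c = 1) (hχc : χ c = -1)
    {k : Type*} [Field k] [CharP k p] {V : Type*} [AddCommGroup V] [Module k V]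
    [Module.Finite k V] (hV : Module.finrank k V = 2) (r : G →* Module.End k V)
    (hQ : ∀ g : G, ∃ t d : ℤ, (LinearMap.charpoly (r g)).coeff 1 = -(t : k) ∧
      (LinearMap.charpoly (r g)).coeff 0 = (d : k) ∧ (d : ZMod p) = (χ g : ZMod p) ∧
      ∀ P : T, g • g • P - t • g • P + d • P = 0)
    {K : Type*} [Field K] [Algebra k K] (U : Submodule K (K ⊗[k] V))
    (hU : ∀ g : G, ∀ x ∈ U, (r g).baseChange K x ∈ U) : U = ⊥ ∨ U = ⊤ := by
  by_contra hcon
  push Not at hcon
  obtain ⟨u, hu, hev⟩ := exists_eigen_of_stable hV r U hU hcon.1 hcon.2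
  obtain ⟨H, hn, hcomm, hchar⟩ := exists_normal_of_eigen hV r hu hev
  have hcast : ∀ a b : ℤ, (a : k) = (b : k) → (a : ZMod p) = (b : ZMod p) := by
    intro a b h
    rw [ZMod.intCast_eq_intCast_iff]
    exact (CharP.intCast_eq_intCast k p).1 h
  have hH : ∀ h ∈ H, ∀ P : T, h • h • P - (2 : ℤ) • h • P + P = 0 := by
    intro h hh P
    obtain ⟨t, d, h1, h0, -, hrel⟩ := hQ h
    have hch := hchar h hh
    have e1 : (t : k) = ((2 : ℤ) : k) := by
      have h2 : (LinearMap.charpoly (r h)).coeff 1 = -2 := by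
        rw [hch]
        simp [coeff_X, coeff_one]
      rw [h1] at h2
      have h3 := neg_injective h2
      rw [h3]
      norm_num
    have e0 : (d : k) = ((1 : ℤ) : k) := by
      have h2 : (LinearMap.charpoly (r h)).coeff 0 = 1 := by
        rw [hch]
        simp [coeff_X, coeff_one]
      rw [h0] at h2
      rw [h2]
      norm_num
    have h4 := hrel P
    rw [zsmul_congr hpT (hcast _ _ e1), zsmul_congr hpT (hcast _ _ e0), one_smul] at h4
    exact h4
  have htriv := kolchin hpT hirr H hn hH
  have hab : ∀ (g h : G) (P : T), g • h • P = h • g • P := by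
    intro g h P
    have h5 := htriv _ (hcomm g h) (h • g • P)
    rw [← h5]
    simp [mul_smul]
  exact false_of_abelian hp2 hpT hirr hnc hab χ hc hχc (fun g => by
    obtain ⟨t, d, -, -, h3, h4⟩ := hQ g
    exact ⟨t, d, h3, h4⟩)

end Fermat.Agent.S58.Res
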