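import Mathlib

/-!
# S58, block RES, file `Basic` (Mathlib only): groups killed by `p`
-/

set_option autoImplicit false

namespace Fermat.Agent.S58.Res

variable {p : ℕ} {T : Type*} [AddCommGroup T]

/-- integers which are congruent modulo `p` act in the same way on a group killed by `p`. -/
theorem zsmul_congr (hpT : ∀ P : T, p • P = 0) {a b : ℤ} (h : (a : ZMod p) = (b : ZMod p))
    (P : T) : a • P = b • P := by
  obtain ⟨e, he⟩ := (ZMod.intCast_eq_intCast_iff_dvd_sub a b p).1 h
  have h1 : b = a + e * (p : ℤ) := by linarith
  rw [h1, add_smul, mul_smul, natCast_zsmul, hpT, smul_zero, add_zero]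

end Fermat.Agent.S58.Res
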