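import Mathlib

/-!
# S58, block RES, file `Invol` (Mathlib only): involutions of an algebraically closed field

`K` algebraically closed of characteristic zero, `c : K →+* K` with `c ∘ c = id`, `c ≠ id`
(Artin-Schreier by hand).  Then `c` inverts every root of unity of odd order.
`F := {x | c x = x}`.
-/

set_option autoImplicit false

namespace Fermat.Agent.S58.Res

variable {K : Type*} [Field K] [IsAlgClosed K] [CharZero K] {c : K →+* K}

/-- **(I1)** `c i = -i`.
PROOF.  `(c i)^2 = -1`, so `c i = i` or `c i = -i` (`(c i - i) * (c i + i) = 0`).  Suppose `c i = i`.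
Take `x` with `c x ≠ x`, `α := x - c x ≠ 0`, `c α = -α`.  Take `β` with `β ^ 2 = α`
(`IsAlgClosed.exists_pow_nat_eq α two_pos`), `ν := β * c β`; `c ν = ν`, `ν ^ 2 = α * c α = - α ^ 2 = (i * α) ^ 2`, so
`ν = i α` or `ν = - i α`; apply `c`: `ν = c ν = - ν`, so `ν = 0` (char 0), so `β = 0` or `c β = 0` (then
`β = c (c β) = 0`), so `α = 0`: contradiction. -/
theorem invol_map_I (hc : ∀ x, c (c x) = x) (hne : ∃ x, c x ≠ x) {i : K} (hi : i * i = -1) :
    c i = -i := by
  have h1 : (c i - i) * (c i + i) = 0 := by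
    have h2 : c i * c i = -1 := by rw [← map_mul, hi, map_neg, map_one]
    linear_combination h2 - hi
  rcases mul_eq_zero.1 h1 with h | h
  swap
  · exact eq_neg_of_add_eq_zero_left h
  exfalso
  have hci : c i = i := sub_eq_zero.1 h
  obtain ⟨x, hx⟩ := hne
  set α := x - c x with hα
  have hα0 : α ≠ 0 := by
    intro h0
    exact hx (sub_eq_zero.1 h0).symm
  have hcα : c α = -α := by
    rw [hα, map_sub, hc]
    ring
  obtain ⟨β, hβ⟩ := IsAlgClosed.exists_pow_nat_eq α two_pos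
  set ν := β * c β with hν
  have hcν : c ν = ν := by
    rw [hν, map_mul, hc, mul_comm]
  have hν2 : (ν - i * α) * (ν + i * α) = 0 := by
    have h3 : c β ^ 2 = -α := by rw [← map_pow, hβ, hcα]
    have h4 : ν ^ 2 = α * -α := by rw [hν, mul_pow, hβ, h3]
    linear_combination h4 - α ^ 2 * hi
  have hν0 : ν = 0 := by
    have h5 : c ν = -ν := by
      rcases mul_eq_zero.1 hν2 with h | h
      · have e : ν = i * α := sub_eq_zero.1 h
        rw [e, map_mul, hci, hcα]
        ring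
      · have e : ν = -(i * α) := eq_neg_of_add_eq_zero_left h
        rw [e, map_neg, map_mul, hci, hcα]
        ring
    rw [hcν] at h5
    exact self_eq_neg.1 h5
  have hβ0 : β = 0 := by
    rcases mul_eq_zero.1 hν0 with h | h
    · exact h
    · rw [← hc β, h, map_zero]
  apply hα0
  rw [← hβ, hβ0]
  norm_num

/-- **(I2)** `K = F ⊕ F i`:  `u = (x + c x) / 2`, `v = (x - c x) / (2 i)`, uses `invol_map_I`. -/
theorem invol_decomp (hc : ∀ x, c (c x) = x) (hne : ∃ x, c x ≠ x) {i : K} (hi : i * i = -1)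
    (x : K) : ∃ u v : K, c u = u ∧ c v = v ∧ x = u + v * i := by
  have hci := invol_map_I hc hne hi
  have hi0 : i ≠ 0 := by
    rintro rfl
    norm_num at hi
  have h2 : c (2 : K) = 2 := map_ofNat c 2
  refine ⟨(x + c x) / 2, (x - c x) / (2 * i), ?_, ?_, ?_⟩
  · rw [map_div₀, map_add, hc, h2, add_comm]
  · rw [map_div₀, map_sub, hc, map_mul, h2, hci]
    field_simp
    ring
  · field_simp
    ring

/-- **(I3)** a sum of two squares of `F` is a square of `F`.
PROOF.  `i` with `i * i = -1` (`IsAlgClosed.exists_pow_nat_eq (-1) two_pos`), `z` with `z ^ 2 = a + b * i`,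
`z = u + v * i` (`invol_decomp`), `w := u ^ 2 + v ^ 2`.  `c z = u - v * i`, `z * c z = w`, and
`w ^ 2 = z ^ 2 * c (z ^ 2) = (a + b i) (a - b i) = a ^ 2 + b ^ 2`. -/
theorem invol_add_sq (hc : ∀ x, c (c x) = x) (hne : ∃ x, c x ≠ x) {a b : K} (ha : c a = a)
    (hb : c b = b) : ∃ w : K, c w = w ∧ a ^ 2 + b ^ 2 = w ^ 2 := by
  obtain ⟨i, hi'⟩ := IsAlgClosed.exists_pow_nat_eq (-1 : K) two_pos
  have hi : i * i = -1 := by rw [← hi', pow_two]
  have hci := invol_map_I hc hne hi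
  obtain ⟨z, hz⟩ := IsAlgClosed.exists_pow_nat_eq (a + b * i) two_pos
  obtain ⟨u, v, hu, hv, rfl⟩ := invol_decomp hc hne hi z
  refine ⟨u ^ 2 + v ^ 2, by rw [map_add, map_pow, map_pow, hu, hv], ?_⟩
  have h1 : (u - v * i) ^ 2 = a - b * i := by
    have := congrArg c hz
    rw [map_pow, map_add, map_mul, map_add, map_mul, hu, hv, ha, hb, hci] at this
    linear_combination this
  have h2 : (u ^ 2 + v ^ 2) ^ 2 = (u + v * i) ^ 2 * (u - v * i) ^ 2 := by
    linear_combination (v ^ 2 * (2 * u ^ 2 + v ^ 2 * (1 - i * i))) * hi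
  rw [h2, hz, h1]
  linear_combination (b ^ 2) * hi

/-- **(I4)** a finite sum of squares of `F` is a square of `F` (`Finset.induction_on`, `invol_add_sq`). -/
theorem invol_sum_sq (hc : ∀ x, c (c x) = x) (hne : ∃ x, c x ≠ x) {ι : Type*} (s : Finset ι)
    (f : ι → K) (hf : ∀ j ∈ s, c (f j) = f j) : ∃ w : K, c w = w ∧ ∑ j ∈ s, f j ^ 2 = w ^ 2 := by
  classical
  induction s using Finset.induction_on with
  | empty => exact ⟨0, map_zero c, by simp⟩
  | insert a s ha ih =>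
    obtain ⟨w, hw, hws⟩ := ih fun j hj => hf j (Finset.mem_insert_of_mem hj)
    obtain ⟨w', hw', hws'⟩ := invol_add_sq hc hne (hf a (Finset.mem_insert_self a s)) hw
    exact ⟨w', hw', by rw [Finset.sum_insert ha, hws, hws']⟩

/-- **(I5)** a root of unity of odd order in `F` is `1`.
PROOF.  Suppose `η ≠ 1`.  `n = 2 m + 1`, `θ := η ^ (m + 1)`, `θ ^ 2 = η ^ n * η = η`, `c θ = θ`.
`(η - 1) * ∑ j ∈ range n, η ^ j = η ^ n - 1 = 0` (`mul_geom_sum` / `geom_sum_mul`), so
`∑ j ∈ range n, (θ ^ j) ^ 2 = 0`.  Split off `j = 0` (`Finset.sum_range_succ'`, `n = 2 m + 1`):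
`∑ j ∈ range (2 m), (θ ^ (j + 1)) ^ 2 = -1`.  By `invol_sum_sq` this is `w ^ 2`, `c w = w`; but `w * w = -1` gives
`c w = - w` (`invol_map_I`), so `w = 0`, `0 = -1`: contradiction. -/
theorem invol_fixed_root (hc : ∀ x, c (c x) = x) (hne : ∃ x, c x ≠ x) {n : ℕ} (hn : Odd n)
    {η : K} (hη : η ^ n = 1) (hfix : c η = η) : η = 1 := by
  by_contra hne1
  obtain ⟨m, rfl⟩ := hn
  obtain ⟨θ, hθ⟩ : ∃ θ, θ = η ^ (m + 1) := ⟨_, rfl⟩
  have hθ2 : θ ^ 2 = η := by
    rw [hθ, ← pow_mul, show (m + 1) * 2 = (2 * m + 1) + 1 by ring, pow_succ, hη, one_mul]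
  have hθc : c θ = θ := by rw [hθ, map_pow, hfix]
  have h1 : (η - 1) * ∑ j ∈ Finset.range (2 * m + 1), η ^ j = 0 := by
    rw [mul_geom_sum, hη, sub_self]
  have h2 : ∑ j ∈ Finset.range (2 * m + 1), η ^ j = 0 :=
    (mul_eq_zero.1 h1).resolve_left (sub_ne_zero.2 hne1)
  rw [Finset.sum_range_succ', pow_zero] at h2
  have h3 : ∑ j ∈ Finset.range (2 * m), (θ ^ (j + 1)) ^ 2 = -1 := by
    have h4 : ∀ j ∈ Finset.range (2 * m), (θ ^ (j + 1)) ^ 2 = η ^ (j + 1) := by
      intro j _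
      rw [← pow_mul, mul_comm, pow_mul, hθ2]
    rw [Finset.sum_congr rfl h4]
    exact eq_neg_of_add_eq_zero_left h2
  obtain ⟨w, hw, hws⟩ := invol_sum_sq hc hne (Finset.range (2 * m)) (fun j => θ ^ (j + 1))
    (fun j _ => by rw [map_pow, hθc])
  rw [h3] at hws
  have h5 : c w = -w := invol_map_I hc hne (by rw [← sq, ← hws])
  rw [hw] at h5
  have h6 : w = 0 := by
    have h7 : (2 : K) * w = 0 := by linear_combination h5
    exact (mul_eq_zero.1 h7).resolve_left two_ne_zero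
  rw [h6] at hws
  norm_num at hws

/-- **(I6)** `c` inverts the roots of unity of odd order (`η := ζ * c ζ`, `invol_fixed_root`). -/
theorem invol_map_root (hc : ∀ x, c (c x) = x) (hne : ∃ x, c x ≠ x) {n : ℕ} (hn : Odd n)
    {ζ : K} (hζ : ζ ^ n = 1) : c ζ = ζ⁻¹ := by
  have h1 : ζ * c ζ = 1 := by
    refine invol_fixed_root hc hne hn ?_ ?_
    · rw [mul_pow, ← map_pow, hζ, map_one, one_mul]
    · rw [map_mul, hc, mul_comm]
  exact eq_inv_of_mul_eq_one_right h1

end Fermat.Agent.S58.Res
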