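import Fermat.Agent.S58.Res.Basic

/-!
# S58, block RES, file `Kolchin` (Mathlib only)

A normal subgroup `H` of `G` all of whose elements satisfy `(h - 1)² = 0` on the finite irreducible
`F_p[G]`-module `T` acts trivially on `T`.
-/

set_option autoImplicit false

namespace Fermat.Agent.S58.Res

variable {G : Type*} [Group G] {p : ℕ} {T : Type*} [AddCommGroup T] [DistribMulAction G T]

/-- **(K1)** `h ^ n • P = P + n • (h • P - P)` if `(h - 1)² = 0`.  Induction on `n`
(`pow_succ'`, `mul_smul`, `smul_add`, `smul_nsmul`/`smul_comm`; `h • h • P - h • P = h • P - P` from `hh`). -/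
theorem pow_smul_of_unip {h : G} (hh : ∀ P : T, h • h • P - (2 : ℤ) • h • P + P = 0) (n : ℕ)
    (P : T) : h ^ n • P = P + n • (h • P - P) := by
  induction n with
  | zero => simp
  | succ n ih =>
    have h2 : h • h • P - h • P = h • P - P := by
      have h3 := hh P
      rw [two_smul] at h3
      have h4 : h • h • P - h • P - (h • P - P) = h • h • P - (h • P + h • P) + P := by abel
      rw [← sub_eq_zero, h4, h3]
    rw [pow_succ', mul_smul, ih, smul_add, smul_comm h n, smul_sub, h2, succ_nsmul]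
    abel

/-- **(K2)** a subgroup of unipotent elements has a nonzero fixed vector.
PROOF.  `φ := MulAction.toPermHom H T : H →* Equiv.Perm T`, `Γ := φ.range` acts on `T` (a subgroup of `Equiv.Perm T`).
`IsPGroup p Γ`: for `γ = φ h`, `γ ^ p ^ 1 = φ (h ^ p) = 1` by `pow_smul_of_unip` with `n = p` and `hpT`.
`p ∣ Nat.card T`: `T` is a nontrivial finite group killed by `p` (e.g. take `P ≠ 0`: `addOrderOf P = p`
(`addOrderOf_eq_prime`) divides `Nat.card T` (`addOrderOf_dvd_natCard`)).
`IsPGroup.exists_fixed_point_of_prime_dvd_card_of_fixed_point` with the fixed point `0`. -/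
theorem exists_fixed_of_unip [Fact p.Prime] [Finite T] [Nontrivial T] (hpT : ∀ P : T, p • P = 0)
    (H : Subgroup G) (hH : ∀ h ∈ H, ∀ P : T, h • h • P - (2 : ℤ) • h • P + P = 0) :
    ∃ P : T, P ≠ 0 ∧ ∀ h ∈ H, h • P = P := by
  have hPG : IsPGroup p (MulAction.toPermHom H T).range := by
    rintro ⟨_, h, rfl⟩
    refine ⟨1, ?_⟩
    apply Subtype.ext
    rw [pow_one]
    show (MulAction.toPermHom H T h) ^ p = 1
    rw [← map_pow]
    ext P
    show ((h : G) ^ p) • P = P
    rw [pow_smul_of_unip (hH h h.2) p P, hpT, add_zero]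
  have hcard : p ∣ Nat.card T := by
    obtain ⟨P, hP0⟩ := exists_ne (0 : T)
    have h1 : addOrderOf P = p := addOrderOf_eq_prime (hpT P) hP0
    rw [← h1]
    exact addOrderOf_dvd_natCard P
  have h0 : (0 : T) ∈ MulAction.fixedPoints (MulAction.toPermHom H T).range T := by
    rintro ⟨_, h, rfl⟩
    show (h : G) • (0 : T) = 0
    exact smul_zero _
  obtain ⟨b, hb, hb0⟩ := hPG.exists_fixed_point_of_prime_dvd_card_of_fixed_point T hcard h0
  refine ⟨b, hb0.symm, fun h hh => ?_⟩
  exact hb ⟨MulAction.toPermHom H T ⟨h, hh⟩, ⟨h, hh⟩, rfl⟩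

/-- **(K3)**  PROOF.  `N := {P | ∀ h ∈ H, h • P = P}` is an additive subgroup, stable under `G`: for `h ∈ H`,
`h • g • P = g • (g⁻¹ * h * g) • P = g • P` (`H` normal: `Subgroup.Normal.conj_mem` with `g⁻¹`).
`N ≠ ⊥` by `exists_fixed_of_unip`, so `N = ⊤`. -/
theorem kolchin [Fact p.Prime] [Finite T] [Nontrivial T] (hpT : ∀ P : T, p • P = 0)
    (hirr : ∀ N : AddSubgroup T, (∀ g : G, ∀ x ∈ N, g • x ∈ N) → N = ⊥ ∨ N = ⊤)
    (H : Subgroup G) (hn : H.Normal)
    (hH : ∀ h ∈ H, ∀ P : T, h • h • P - (2 : ℤ) • h • P + P = 0) :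
    ∀ h ∈ H, ∀ P : T, h • P = P := by
  let N : AddSubgroup T :=
    { carrier := {P | ∀ h ∈ H, h • P = P}
      add_mem' := fun {a b} ha hb h hh => by rw [smul_add, ha h hh, hb h hh]
      zero_mem' := fun h _ => smul_zero h
      neg_mem' := fun {a} ha h hh => by rw [smul_neg, ha h hh] }
  have hstab : ∀ g : G, ∀ x ∈ N, g • x ∈ N := by
    intro g x hx h hh
    have h1 : g⁻¹ * h * g ∈ H := by
      have h2 := hn.conj_mem h hh g⁻¹
      rwa [inv_inv] at h2
    have h3 : h * g = g * (g⁻¹ * h * g) := by group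
    rw [← mul_smul, h3, mul_smul, hx _ h1]
  obtain ⟨P, hP0, hP⟩ := exists_fixed_of_unip hpT H hH
  rcases hirr N hstab with hN | hN
  · exact absurd ((AddSubgroup.mem_bot).1 (hN ▸ (show P ∈ N from hP))) hP0
  · intro h hh Q
    have hQ : Q ∈ N := hN ▸ AddSubgroup.mem_top Q
    exact hQ h hh

end Fermat.Agent.S58.Res
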